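/-
Programme T1a (S19), brick R-g CENTRES, instance side (helper94, for helper92's final theorem).

From the contract `RED.CORE.CoreIface24.TwoChartModel R K F π t B0 B1 Ov` we extract, for each
chart `B = B0` (parameter `τ = t`) and `B = B1` (parameter `τ = t⁻¹`), the one-chart package
`Chart π τ B Ov` and prove from it:

* `Chart.piB_ne_zero`      : `algebraMap R B π ≠ 0`;
* `Chart.mem_span_pi_iff`  : `b ∈ π B ↔ b = 0 ∨ b⁻¹ ∉ Ov`   (`π B = B ∩ 𝔪_Ov`);
* `Chart.isPrime_span_pi`  : `(span {algebraMap R B π}).IsPrime`;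
* `Chart.isMaximal_span_pi_base` : `(span {π} : Ideal R).IsMaximal`;
* `Chart.exists_monic`     : every `x : B` is a root of a monic polynomial over `R[X]` acting through
  `X ↦ τ`;
* `Chart.isIntegral_adjoin_map` : for `ψ : B →ₐ[R] D`, `ψ x` is integral over `k[ψ τ]`;
* `Chart.isAlgebraic_quotient` / `Chart.halg` : `B ⧸ P` is algebraic over `R` for `P ≠ ⊥` prime;
* `Chart.isIntegral_residue` : for `n ∋ π` maximal, `B ⧸ n` is integral over `R ⧸ π`;
* `Chart.hsep` : (finite residue field) for `n ∋ π` maximal and `c : B` there is `G : R[X]` with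
  `G(c) ∈ n`, `G'(c) ∉ n`;
* `Chart.ne_span_pi` : (`τ` transcendental over `R`) a maximal ideal `n ∋ π` is never `π B`.

`chart0`, `chart1` instantiate the package for a `TwoChartModel`; `transcendental0`,
`transcendental1` transport `Transcendental K t`; `finiteType_of_fin`, `finiteType0` give
`Algebra.FiniteType R B` from explicit module generators over `R[τ]`.
-/
import Mathlib
import Fermat.Agent.RED.CORE.CoreIface24

set_option autoImplicit false
set_option linter.style.haveILetI false

noncomputable section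

namespace Fermat.Agent.T1.Centres94.OfModel

open Polynomial

variable {R F : Type*} [CommRing R] [Field F] [Algebra R F]

/-- The hypotheses on one chart `B ∋ τ` (literal shapes of the fields of `TwoChartModel`). -/
structure Chart (π : R) (τ : F) (B : Subalgebra R F) (Ov : ValuationSubring F) : Prop where
  domR : IsDomain R
  dvrR : ∀ r : R, r ≠ 0 → ∃ (k : ℕ) (v : Rˣ), r = π ^ k * v
  noethB : IsNoetherianRing B
  τ_mem : τ ∈ B
  int : ∀ x ∈ B, IsIntegral (Algebra.adjoin R {τ}) x
  le_Ov : ∀ x ∈ B, x ∈ Ov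
  pi_ne : algebraMap R F π ≠ 0
  pi_nonunit : (algebraMap R F π)⁻¹ ∉ Ov
  unif : ∀ x ∈ Ov, x⁻¹ ∉ Ov → ∃ c ∈ Ov, x = algebraMap R F π * c
  sat : ∀ b ∈ B, ∀ c ∈ Ov, b = algebraMap R F π * c → c ∈ B
  smooth : ∀ x : Ideal B, x.IsMaximal → algebraMap R B π ∈ x →
    ∃ s ∈ x, ∀ y ∈ x, ∃ d : B, d ∉ x ∧ d * y ∈ Ideal.span {algebraMap R B π, s}

variable {π : R} {τ : F} {B : Subalgebra R F} {Ov : ValuationSubring F}

namespace Chart

/-- (1) `π ≠ 0` in `B`. -/
theorem piB_ne_zero (h : Chart π τ B Ov) : algebraMap R B π ≠ 0 := by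
  intro e
  apply h.pi_ne
  have := congrArg (fun b : B => (b : F)) e
  simpa using this

/-- `π B = B ∩ 𝔪_Ov`. -/
theorem mem_span_pi_iff (h : Chart π τ B Ov) (b : B) :
    b ∈ Ideal.span {algebraMap R B π} ↔ (b : F) = 0 ∨ ((b : F))⁻¹ ∉ Ov := by
  constructor
  · intro hb
    obtain ⟨c, hc⟩ := Ideal.mem_span_singleton'.mp hb
    by_contra hcon
    push Not at hcon
    obtain ⟨hb0, hbinv⟩ := hcon
    apply h.pi_nonunit
    have hcF : (c : F) * algebraMap R F π = (b : F) := by
      have := congrArg (fun b : B => (b : F)) hc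
      simpa using this
    have : (algebraMap R F π)⁻¹ = (c : F) * ((b : F))⁻¹ := by
      rw [← hcF]
      have hπ := h.pi_ne
      have hc0 : (c : F) ≠ 0 := by
        rintro e
        rw [e, zero_mul] at hcF
        exact hb0 hcF.symm
      field_simp
    rw [this]
    exact Ov.mul_mem _ _ (h.le_Ov _ c.2) hbinv
  · rintro (hb0 | hbinv)
    · have : b = 0 := Subtype.ext hb0
      rw [this]
      exact zero_mem _
    · obtain ⟨c, hc, e⟩ := h.unif (b : F) (h.le_Ov _ b.2) hbinv
      have hcB : c ∈ B := h.sat _ b.2 c hc e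
      have : b = algebraMap R B π * ⟨c, hcB⟩ := Subtype.ext e
      rw [this]
      exact Ideal.mul_mem_right _ _ (Ideal.mem_span_singleton_self _)

/-- (2) `π B` is a prime ideal of `B`. -/
theorem isPrime_span_pi (h : Chart π τ B Ov) : (Ideal.span {algebraMap R B π}).IsPrime := by
  rw [Ideal.isPrime_iff]
  constructor
  · intro htop
    have h1 : (1 : B) ∈ Ideal.span {algebraMap R B π} := by rw [htop]; trivial
    rcases (h.mem_span_pi_iff 1).mp h1 with h0 | h0
    · simp at h0
    · apply h0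
      simp [Ov.one_mem]
  · intro x y hxy
    by_contra hcon
    push Not at hcon
    obtain ⟨hx, hy⟩ := hcon
    rw [h.mem_span_pi_iff] at hx hy
    push Not at hx hy
    rcases (h.mem_span_pi_iff (x * y)).mp hxy with h0 | h0
    · have : (x : F) * (y : F) = 0 := by simpa using h0
      rcases mul_eq_zero.mp this with e | e
      · exact hx.1 e
      · exact hy.1 e
    · apply h0
      have : (((x * y : B) : F))⁻¹ = ((x : F))⁻¹ * ((y : F))⁻¹ := by
        push_cast
        rw [mul_inv]
      rw [this]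
      exact Ov.mul_mem _ _ hx.2 hy.2

/-- `π R` is a maximal ideal of `R`. -/
theorem isMaximal_span_pi_base (h : Chart π τ B Ov) : (Ideal.span {π} : Ideal R).IsMaximal := by
  rw [Ideal.isMaximal_iff]
  constructor
  · intro h1
    obtain ⟨a, ha⟩ := Ideal.mem_span_singleton'.mp h1
    apply h.pi_nonunit
    have hF : algebraMap R F a * algebraMap R F π = 1 := by
      rw [← map_mul, ha, map_one]
    have : (algebraMap R F π)⁻¹ = algebraMap R F a := (eq_inv_of_mul_eq_one_left hF).symm
    rw [this]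
    exact h.le_Ov _ (B.algebraMap_mem a)
  · intro J x _ hx hxJ
    have hx0 : x ≠ 0 := by
      rintro rfl
      exact hx (zero_mem _)
    obtain ⟨k, v, e⟩ := h.dvrR x hx0
    rcases Nat.eq_zero_or_pos k with rfl | hk
    · rw [pow_zero, one_mul] at e
      rw [e] at hxJ
      have := J.mul_mem_left (↑v⁻¹ : R) hxJ
      simpa using this
    · exfalso
      apply hx
      rw [e, Ideal.mem_span_singleton']
      refine ⟨π ^ (k - 1) * v, ?_⟩
      rw [mul_right_comm, ← pow_succ, Nat.sub_add_cancel hk]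

/-- Every `x : B` is a root of a monic polynomial with coefficients in `R[X]`, acting on `B`
through `X ↦ τ`. -/
theorem exists_monic (h : Chart π τ B Ov) (x : B) : ∃ p : R[X][X], p.Monic ∧
    eval₂ ((aeval (⟨τ, h.τ_mem⟩ : B) : R[X] →ₐ[R] B) : R[X] →+* B) x p = 0 := by
  obtain ⟨p₀, hp₀, hx⟩ := h.int x x.2
  let e : R[X] →ₐ[R] Algebra.adjoin R {τ} :=
    (aeval τ).codRestrict _ (fun f => aeval_mem_adjoin_singleton R τ)
  have he : Function.Surjective e := by
    rintro ⟨y, hy⟩
    have hy' := hy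
    rw [Algebra.adjoin_singleton_eq_range_aeval] at hy'
    obtain ⟨f, hf⟩ := hy'
    exact ⟨f, Subtype.ext hf⟩
  have hl : p₀ ∈ lifts (e : R[X] →+* Algebra.adjoin R {τ}) := by
    rw [mem_lifts]
    exact map_surjective _ he p₀
  obtain ⟨q, hq, -, hqm⟩ := lifts_and_natDegree_eq_and_monic hl hp₀
  refine ⟨q, hqm, ?_⟩
  apply Subtype.val_injective
  have h1 : ((eval₂ ((aeval (⟨τ, h.τ_mem⟩ : B) : R[X] →ₐ[R] B) : R[X] →+* B) x q : B) : F) =
      eval₂ ((algebraMap (Algebra.adjoin R {τ}) F).comp (e : R[X] →+* Algebra.adjoin R {τ}))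
        (x : F) q := by
    have := hom_eval₂ q ((aeval (⟨τ, h.τ_mem⟩ : B) : R[X] →ₐ[R] B) : R[X] →+* B)
      (B.val : B →+* F) x
    change (B.val : B →+* F) _ = _
    rw [this]
    change eval₂ _ (x : F) q = _
    congr 1
    ext r
    · simp [e]
    · simp [e]
  rw [h1, ← eval₂_map, hq]
  exact hx

/-- For every `R`-algebra map `ψ : B → D` (and every intermediate coefficient ring `k`), `ψ x` is
integral over `k[ψ τ] ⊆ D`. -/
theorem isIntegral_adjoin_map (h : Chart π τ B Ov) {k D : Type*} [CommRing k] [CommRing D]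
    [Algebra R k] [Algebra k D] [Algebra R D] [IsScalarTower R k D] (ψ : B →ₐ[R] D) (x : B) :
    IsIntegral (Algebra.adjoin k {ψ ⟨τ, h.τ_mem⟩}) (ψ x) := by
  obtain ⟨p, hp, hx⟩ := h.exists_monic x
  set a : D := ψ ⟨τ, h.τ_mem⟩ with ha
  let θ : k[X] →ₐ[k] Algebra.adjoin k {a} :=
    (aeval a).codRestrict _ (fun f => aeval_mem_adjoin_singleton k a)
  let φ : R[X] →+* Algebra.adjoin k {a} :=
    (θ : k[X] →+* Algebra.adjoin k {a}).comp (mapRingHom (algebraMap R k))
  refine ⟨p.map φ, hp.map _, ?_⟩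
  rw [eval₂_map]
  have hcomp : (algebraMap (Algebra.adjoin k {a}) D).comp φ =
      (ψ : B →+* D).comp ((aeval (⟨τ, h.τ_mem⟩ : B) : R[X] →ₐ[R] B) : R[X] →+* B) := by
    apply RingHom.ext
    intro f
    have h1 : (algebraMap (Algebra.adjoin k {a}) D) (φ f) = aeval a (f.map (algebraMap R k)) := rfl
    rw [RingHom.comp_apply, h1, aeval_map_algebraMap, RingHom.comp_apply]
    change aeval a f = ψ (aeval (⟨τ, h.τ_mem⟩ : B) f)
    rw [ha, aeval_algHom_apply]
  rw [hcomp]
  have := hom_eval₂ p ((aeval (⟨τ, h.τ_mem⟩ : B) : R[X] →ₐ[R] B) : R[X] →+* B) (ψ : B →+* D) x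
  rw [hx, map_zero] at this
  exact this.symm

/-- (5) For a nonzero prime `P` of `B`, the quotient `B ⧸ P` is algebraic over `R`. -/
theorem isAlgebraic_quotient (h : Chart π τ B Ov) (P : Ideal B) [P.IsPrime] (hP : P ≠ ⊥) :
    Algebra.IsAlgebraic R (B ⧸ P) := by
  haveI := h.domR
  obtain ⟨x, hxP, hx0⟩ := Submodule.exists_mem_ne_zero_of_ne_bot hP
  obtain ⟨p, hp, hpx⟩ := h.exists_monic x
  obtain ⟨i, hi0, hiP⟩ := Ideal.exists_coeff_ne_zero_mem_comap_of_root_mem hx0 hxP hp.ne_zero hpx
  let ψ : B →ₐ[R] B ⧸ P := Ideal.Quotient.mkₐ R P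
  have halg : IsAlgebraic R (ψ ⟨τ, h.τ_mem⟩) := by
    refine ⟨p.coeff i, hi0, ?_⟩
    rw [aeval_algHom_apply]
    exact Ideal.Quotient.eq_zero_iff_mem.mpr hiP
  let S : Subalgebra R (B ⧸ P) := Algebra.adjoin R {ψ ⟨τ, h.τ_mem⟩}
  haveI : Algebra.IsAlgebraic R S :=
    (Subalgebra.isAlgebraic_iff S).mp (Algebra.isAlgebraic_adjoin_singleton_iff.mpr halg)
  haveI : Algebra.IsIntegral S (B ⧸ P) := ⟨fun y => by
    obtain ⟨x, rfl⟩ := Ideal.Quotient.mkₐ_surjective R P y
    exact h.isIntegral_adjoin_map (k := R) ψ x⟩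
  exact Algebra.IsAlgebraic.trans_isIntegral R S (B ⧸ P)

/-- (5), in the shape of the consumer. -/
theorem halg (h : Chart π τ B Ov) : ∀ P : Ideal B, P.IsPrime → P ≠ ⊥ → algebraMap R B π ∉ P →
    Algebra.IsAlgebraic R (B ⧸ P) :=
  fun P hP hP0 _ => by
    haveI := hP
    exact h.isAlgebraic_quotient P hP0

/-- A maximal ideal `n ∋ π` of `B` lies over `π R`. -/
theorem liesOver (h : Chart π τ B Ov) (n : Ideal B) (hn : n.IsMaximal)
    (hπn : algebraMap R B π ∈ n) : n.LiesOver (Ideal.span {π}) := by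
  refine ⟨h.isMaximal_span_pi_base.eq_of_le (Ideal.comap_ne_top _ hn.ne_top) ?_⟩
  rw [Ideal.span_le, Set.singleton_subset_iff]
  exact hπn

/-- For a maximal ideal `n ∋ π` of `B`, the residue field `B ⧸ n` is integral (algebraic) over
`R ⧸ π` (for the algebra structure `Ideal.Quotient.algebraOfLiesOver`, see `Chart.liesOver`). -/
theorem isIntegral_residue (h : Chart π τ B Ov) (n : Ideal B) [hn : n.IsMaximal]
    [n.LiesOver (Ideal.span {π})] :
    Algebra.IsIntegral (R ⧸ Ideal.span {π}) (B ⧸ n) := by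
  haveI := h.isMaximal_span_pi_base
  letI := Ideal.Quotient.field (Ideal.span {π})
  letI := Ideal.Quotient.field n
  let ψ : B →ₐ[R] B ⧸ n := Ideal.Quotient.mkₐ R n
  let S : Subalgebra (R ⧸ Ideal.span {π}) (B ⧸ n) := Algebra.adjoin _ {ψ ⟨τ, h.τ_mem⟩}
  haveI hint : Algebra.IsIntegral S (B ⧸ n) := ⟨fun y => by
    obtain ⟨x, rfl⟩ := Ideal.Quotient.mkₐ_surjective R n y
    exact h.isIntegral_adjoin_map (k := R ⧸ Ideal.span {π}) ψ x⟩
  have hS : IsField S :=
    isField_of_isIntegral_of_isField (R := S) (S := B ⧸ n) Subtype.val_injective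
      (Field.toIsField _)
  letI := hS.toField
  have hfg : S.FG := ⟨{ψ ⟨τ, h.τ_mem⟩}, by rw [Finset.coe_singleton]⟩
  haveI : Algebra.FiniteType (R ⧸ Ideal.span {π}) S := (Subalgebra.fg_iff_finiteType S).mp hfg
  haveI : Module.Finite (R ⧸ Ideal.span {π}) S :=
    finite_of_finite_type_of_isJacobsonRing (R ⧸ Ideal.span {π}) S
  haveI : Algebra.IsIntegral (R ⧸ Ideal.span {π}) S := Algebra.IsIntegral.of_finite _ _
  exact Algebra.IsIntegral.trans S

/-- (6) Separating polynomials: if the residue field `R ⧸ π` is finite, then for every maximal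
ideal `n ∋ π` of `B` and every `c : B` there is `G : R[X]` with `G(c) ∈ n` and `G'(c) ∉ n`. -/
theorem hsep (h : Chart π τ B Ov) [Finite (R ⧸ Ideal.span {π})] :
    ∀ n : Ideal B, n.IsMaximal → algebraMap R B π ∈ n → ∀ c : B,
      ∃ G : R[X], aeval c G ∈ n ∧ aeval c (derivative G) ∉ n := by
  intro n hn hπn c
  haveI := hn
  haveI := h.isMaximal_span_pi_base
  haveI := h.liesOver n hn hπn
  letI := Ideal.Quotient.field (Ideal.span {π})
  letI := Ideal.Quotient.field n
  haveI : PerfectField (R ⧸ Ideal.span {π}) := PerfectField.ofFinite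
  haveI := h.isIntegral_residue n
  let ψ : B →ₐ[R] B ⧸ n := Ideal.Quotient.mkₐ R n
  have hint : IsIntegral (R ⧸ Ideal.span {π}) (ψ c) := Algebra.IsIntegral.isIntegral _
  have hsepg : (minpoly (R ⧸ Ideal.span {π}) (ψ c)).Separable :=
    PerfectField.separable_of_irreducible (minpoly.irreducible hint)
  obtain ⟨G, hG⟩ := map_surjective (Ideal.Quotient.mk (Ideal.span {π}))
    Ideal.Quotient.mk_surjective (minpoly (R ⧸ Ideal.span {π}) (ψ c))
  have key : ∀ H : R[X], ψ (aeval c H) =
      aeval (ψ c) (H.map (algebraMap R (R ⧸ Ideal.span {π}))) := by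
    intro H
    rw [aeval_map_algebraMap, aeval_algHom_apply]
  refine ⟨G, ?_, ?_⟩
  · rw [← Ideal.Quotient.eq_zero_iff_mem]
    change ψ (aeval c G) = 0
    rw [key]
    change aeval (ψ c) (G.map (Ideal.Quotient.mk (Ideal.span {π}))) = 0
    rw [hG]
    exact minpoly.aeval _ _
  · intro hmem
    rw [← Ideal.Quotient.eq_zero_iff_mem] at hmem
    change ψ (aeval c (derivative G)) = 0 at hmem
    rw [key, ← derivative_map] at hmem
    change aeval (ψ c) (derivative (G.map (Ideal.Quotient.mk (Ideal.span {π})))) = 0 at hmem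
    rw [hG] at hmem
    exact hsepg.aeval_derivative_ne_zero (minpoly.aeval _ _) hmem

/-- (3) If `τ` is transcendental over `R`, then `π B` is not a maximal ideal: a maximal ideal
`n ∋ π` of `B` is never `π B`. -/
theorem ne_span_pi (h : Chart π τ B Ov) (htr : Transcendental R τ) :
    ∀ n : Ideal B, n.IsMaximal → algebraMap R B π ∈ n → n ≠ Ideal.span {algebraMap R B π} := by
  rintro n hn - rfl
  haveI hmaxR := h.isMaximal_span_pi_base
  letI : Algebra R[X] B := ((aeval (⟨τ, h.τ_mem⟩ : B) : R[X] →ₐ[R] B) : R[X] →+* B).toAlgebra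
  have hmap : ∀ f : R[X], algebraMap R[X] B f = aeval (⟨τ, h.τ_mem⟩ : B) f := fun _ => rfl
  haveI : Algebra.IsIntegral R[X] B := ⟨fun x => h.exists_monic x⟩
  have hinj : Function.Injective (algebraMap R[X] B) := by
    rw [injective_iff_map_eq_zero]
    intro f hf
    by_contra hf0
    apply htr
    refine ⟨f, hf0, ?_⟩
    have := congrArg (fun b : B => (b : F)) hf
    simp only [hmap, ZeroMemClass.coe_zero] at this
    rw [← this]
    exact aeval_algHom_apply B.val (⟨τ, h.τ_mem⟩ : B) f
  -- the prime `π R[X]`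
  haveI hpR : (Ideal.span {π} : Ideal R).IsPrime := hmaxR.isPrime
  haveI hP0 : ((Ideal.span {π}).map (C : R →+* R[X])).IsPrime :=
    Ideal.isPrime_map_C_of_isPrime
  have hker : RingHom.ker (algebraMap R[X] B) ≤ (Ideal.span {π}).map (C : R →+* R[X]) := by
    rw [(RingHom.injective_iff_ker_eq_bot _).mp hinj]
    exact bot_le
  obtain ⟨Q, hQ, hQP⟩ := Ideal.exists_ideal_over_prime_of_isIntegral_of_isDomain
    ((Ideal.span {π}).map (C : R →+* R[X])) hker
  -- `π ∈ Q`, hence `Q = π B` by maximality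
  have hπQ : algebraMap R B π ∈ Q := by
    have h1 : (C π : R[X]) ∈ Q.comap (algebraMap R[X] B) := by
      rw [hQP]
      exact Ideal.mem_map_of_mem _ (Ideal.mem_span_singleton_self π)
    rw [Ideal.mem_comap, hmap, aeval_C] at h1
    exact h1
  have hQeq : Ideal.span {algebraMap R B π} = Q :=
    hn.eq_of_le hQ.ne_top (by
      rw [Ideal.span_le, Set.singleton_subset_iff]
      exact hπQ)
  -- so `π R[X]` would be maximal
  have hmaxP : ((Ideal.span {π}).map (C : R →+* R[X])).IsMaximal := by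
    rw [← hQP, ← hQeq]
    exact Ideal.isMaximal_comap_of_isIntegral_of_isMaximal _
  have hf : IsField (R[X] ⧸ (Ideal.span {π}).map (C : R →+* R[X])) :=
    (Ideal.Quotient.maximal_ideal_iff_isField_quotient _).mp hmaxP
  exact Polynomial.not_isField (R ⧸ Ideal.span {π})
    ((Ideal.polynomialQuotientEquivQuotientPolynomial (Ideal.span {π})).toMulEquiv.isField hf)

end Chart

/-! ### The two charts of a `TwoChartModel` -/

section Model

open Fermat.Agent.RED.CORE.CoreIface24

variable {R K F : Type*} [CommRing R] [Field K] [Field F] [Algebra R K] [Algebra R F]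
variable {π : R} {t : F} {B0 B1 : Subalgebra R F} {Ov : ValuationSubring F}

/-- The chart `B0 ∋ t` of a two-chart model. -/
theorem chart0 (M : TwoChartModel R K F π t B0 B1 Ov) : Chart π t B0 Ov where
  domR := by
    haveI := M.fracR
    exact Function.Injective.isDomain (algebraMap R K) (IsFractionRing.injective R K)
  dvrR := M.dvrR
  noethB := M.noeth0
  τ_mem := M.t_mem
  int := M.int0
  le_Ov := M.le_Ov0
  pi_ne := M.pi_ne
  pi_nonunit := M.pi_nonunit
  unif := M.unif
  sat := M.sat0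
  smooth := M.smooth0

/-- The chart `B1 ∋ t⁻¹` of a two-chart model. -/
theorem chart1 (M : TwoChartModel R K F π t B0 B1 Ov) : Chart π t⁻¹ B1 Ov where
  domR := by
    haveI := M.fracR
    exact Function.Injective.isDomain (algebraMap R K) (IsFractionRing.injective R K)
  dvrR := M.dvrR
  noethB := M.noeth1
  τ_mem := M.tinv_mem
  int := M.int1
  le_Ov := M.le_Ov1
  pi_ne := M.pi_ne
  pi_nonunit := M.pi_nonunit
  unif := M.unif
  sat := M.sat1
  smooth := M.smooth1

/-- `t` transcendental over `K` ⇒ transcendental over `R`. -/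
theorem transcendental0 [Algebra K F] [IsScalarTower R K F]
    (M : TwoChartModel R K F π t B0 B1 Ov) (htr : Transcendental K t) :
    Transcendental R t := by
  haveI := M.fracR
  exact htr.restrictScalars (IsFractionRing.injective R K)

/-- `t` transcendental over `K` ⇒ `t⁻¹` transcendental over `R`. -/
theorem transcendental1 [Algebra K F] [IsScalarTower R K F]
    (M : TwoChartModel R K F π t B0 B1 Ov) (htr : Transcendental K t) :
    Transcendental R t⁻¹ := by
  haveI := M.fracR
  have h1 : Transcendental K t⁻¹ := fun h => htr (IsAlgebraic.inv_iff.mp h)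
  exact h1.restrictScalars (IsFractionRing.injective R K)

omit [Field K] [Algebra R K] in
/-- A chart with explicit module generators over `R[τ]` (the shape of `TwoChartModel.fin0`, and of
the `fin1` exported by G0 for `τ = t⁻¹`) is an `R`-algebra of finite type. -/
theorem finiteType_of_fin {τ : F} {B : Subalgebra R F} (hτ : τ ∈ B)
    (hfin : ∃ (r : ℕ) (e : Fin r → F), (∀ i, e i ∈ B) ∧
      ∀ x ∈ B, ∃ P : Fin r → R[X], x = ∑ i, aeval τ (P i) * e i) :
    Algebra.FiniteType R B := by
  rw [← Subalgebra.fg_iff_finiteType]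
  obtain ⟨r, e, he, hgen⟩ := hfin
  classical
  refine ⟨insert τ (Finset.univ.image e), le_antisymm ?_ ?_⟩
  · rw [Algebra.adjoin_le_iff]
    intro x hx
    rw [Finset.coe_insert, Set.mem_insert_iff] at hx
    rcases hx with rfl | hx
    · exact hτ
    · rw [Finset.coe_image, Set.mem_image] at hx
      obtain ⟨i, -, rfl⟩ := hx
      exact he i
  · intro x hx
    obtain ⟨P, rfl⟩ := hgen x hx
    refine Subalgebra.sum_mem _ fun i _ => Subalgebra.mul_mem _ ?_ ?_
    · have h1 : aeval τ (P i) ∈ Algebra.adjoin R {τ} := aeval_mem_adjoin_singleton R τ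
      refine Algebra.adjoin_mono ?_ h1
      rw [Set.singleton_subset_iff, Finset.coe_insert]
      exact Set.mem_insert _ _
    · apply Algebra.subset_adjoin
      rw [Finset.coe_insert, Finset.coe_image]
      exact Set.mem_insert_of_mem _ ⟨i, Finset.mem_coe.mpr (Finset.mem_univ i), rfl⟩

/-- `B0` is an `R`-algebra of finite type (from the explicit module generators `fin0`). -/
theorem finiteType0 (M : TwoChartModel R K F π t B0 B1 Ov) : Algebra.FiniteType R B0 :=
  finiteType_of_fin M.t_mem M.fin0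

end Model

end Fermat.Agent.T1.Centres94.OfModel
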