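/-
Programme T1a (S19), brick G9-H7 CENTRES-FINAL, adapter (helper94): DESCENT OF A CENTRE FROM `Ω` TO `O`.

`ModelLocal.exists_centre_local` produces the centre of a point as a `W`-algebra map `q' : B → Ω`
(`Ω = ℚ̄`).  The class-level brick `CentresClass47` wants the centre as a point `B →ₐ[W] O` of the
local ring `O ⊂ L` (`L` a number field containing the values of `q'`), with the same reduction and
fixed by the ring endomorphisms `f` of `O` induced by the automorphisms `σ` of `Ω` fixing `q'`.

`descend` : if `j : O →ₐ[W] Ω` is injective and every value of `q'` lies in the range of `j`, then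
`q' = j ∘ q''` for a unique `q'' : B →ₐ[W] O`;
`descend_residue` : if moreover `x ∈ 𝔪_O ↔ v (j x) < 1` and `v (q' b - j (q b)) < 1`, then `q''` and `q`
have the same reduction;
`descend_fixed` : if `j ∘ f = σ ∘ j` and `σ` fixes the values of `q'`, then `f` fixes the values of `q''`.
-/
import Mathlib

set_option autoImplicit false

noncomputable section

namespace Fermat.Agent.T1.Centres94.Descend

variable {W B O Ω : Type*} [CommRing W] [CommRing B] [CommRing O] [CommRing Ω]
  [Algebra W B] [Algebra W O] [Algebra W Ω]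

/-- The descended point: `q' = j ∘ descend`. -/
def descend (j : O →ₐ[W] Ω) (hj : Function.Injective j) (q' : B →ₐ[W] Ω)
    (hq' : ∀ b, q' b ∈ j.range) : B →ₐ[W] O :=
  ((AlgEquiv.ofInjective j hj).symm : j.range →ₐ[W] O).comp (q'.codRestrict j.range hq')

theorem j_descend (j : O →ₐ[W] Ω) (hj : Function.Injective j) (q' : B →ₐ[W] Ω)
    (hq' : ∀ b, q' b ∈ j.range) (b : B) : j (descend j hj q' hq' b) = q' b := by
  have h1 : (AlgEquiv.ofInjective j hj) (descend j hj q' hq' b) = q'.codRestrict j.range hq' b := by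
    simp [descend]
  have h2 := congrArg (fun z : j.range => (z : Ω)) h1
  simpa using h2

theorem descend_unique (j : O →ₐ[W] Ω) (hj : Function.Injective j) (q' : B →ₐ[W] Ω)
    (hq' : ∀ b, q' b ∈ j.range) (q'' : B →ₐ[W] O) (h : ∀ b, j (q'' b) = q' b) :
    q'' = descend j hj q' hq' :=
  AlgHom.ext fun b => hj (by rw [h, j_descend])

/-- Same reduction. -/
theorem descend_residue [IsLocalRing O] (j : O →ₐ[W] Ω) (hj : Function.Injective j)
    (v : Ω → Prop) (hmax : ∀ x : O, x ∈ IsLocalRing.maximalIdeal O ↔ v (j x))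
    (q : B →ₐ[W] O) (q' : B →ₐ[W] Ω) (hq' : ∀ b, q' b ∈ j.range)
    (hcong : ∀ b, v (q' b - j (q b))) (b : B) :
    IsLocalRing.residue O (descend j hj q' hq' b) = IsLocalRing.residue O (q b) := by
  rw [← sub_eq_zero, ← map_sub, IsLocalRing.residue_eq_zero_iff, hmax, map_sub, j_descend]
  exact hcong b

/-- Fixed by the endomorphisms of `O` induced by automorphisms of `Ω` fixing the centre. -/
theorem descend_fixed (j : O →ₐ[W] Ω) (hj : Function.Injective j) (q' : B →ₐ[W] Ω)
    (hq' : ∀ b, q' b ∈ j.range) (f : O → O) (σ : Ω → Ω) (hfσ : ∀ x, j (f x) = σ (j x))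
    (hσ : ∀ b, σ (q' b) = q' b) (b : B) :
    f (descend j hj q' hq' b) = descend j hj q' hq' b :=
  hj (by rw [hfσ, j_descend, hσ])

end Fermat.Agent.T1.Centres94.Descend
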