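/-
T1A / R-g CENTRES, abstract core (helper94), part (E): EXISTENCE by going-down.  Mathlib only.

`R` a domain, `A` a valuation ring with algebraically closed fraction field `Ω`, `R → A` injective
with `A` flat over `R`.  `D` a flat `R`-algebra all of whose elements are algebraic over `R`, and
`ρ : D → κ(A)` an `R`-algebra homomorphism ("a point of the special fibre").  Then `ρ` lifts to an
`R`-algebra homomorphism `P : D → A` (`exists_lift_of_flat`).

No Hensel, no completeness, no Galois conjugacy of places: `A ⊗[R] D` is `A`-flat, so a minimal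
prime below the kernel of `A ⊗ D → κ(A)` meets `A` in `0`; the quotient is algebraic over
`Ω = Frac A`, hence embeds in `Ω`; its image contains `A` and has a proper ideal over `𝔪_A`, hence
equals `A` (valuation rings are maximal for domination).
-/
import Mathlib

set_option autoImplicit false

open TensorProduct IsLocalRing

namespace Fermat.Agent.T1.Centres94

section Exist

variable {R A D : Type*} [CommRing R] [CommRing A] [IsDomain A] [ValuationRing A]
  [Algebra R A] [CommRing D] [Algebra R D]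

/-- **Existence of a lift (going-down).**  `Ω` is the (algebraically closed) fraction field of the
valuation ring `A`. -/
theorem exists_lift_of_flat (Ω : Type*) [Field Ω] [IsAlgClosed Ω] [Algebra A Ω]
    [IsFractionRing A Ω] [Module.Flat R D]
    (hinj : Function.Injective (algebraMap R A))
    (halg : ∀ d : D, ∃ p : Polynomial R, p ≠ 0 ∧ Polynomial.aeval d p = 0)
    (ρ : D →ₐ[R] ResidueField A) :
    ∃ P : D →ₐ[R] A, ∀ d : D, residue A (P d) = ρ d := by
  classical
  let _ : Algebra R Ω := ((algebraMap A Ω).comp (algebraMap R A)).toAlgebra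
  have : IsScalarTower R A Ω := IsScalarTower.of_algebraMap_eq fun _ => rfl
  -- the tensor product and the point of its special fibre
  let T := A ⊗[R] D
  let resA : A →ₐ[R] ResidueField A := IsScalarTower.toAlgHom R A (ResidueField A)
  let Φ : T →ₐ[R] ResidueField A := Algebra.TensorProduct.lift resA ρ (fun _ _ => Commute.all _ _)
  have hΦ : ∀ (a : A) (d : D), Φ (a ⊗ₜ d) = residue A a * ρ d := fun a d => by
    show Algebra.TensorProduct.lift resA ρ _ (a ⊗ₜ d) = _
    rw [Algebra.TensorProduct.lift_tmul]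
    rfl
  let 𝔪 : Ideal T := RingHom.ker (Φ : T →+* ResidueField A)
  have h𝔪 : 𝔪.IsPrime := RingHom.ker_isPrime _
  obtain ⟨𝔭, h𝔭min, h𝔭le⟩ := Ideal.exists_minimalPrimes_le (I := (⊥ : Ideal T)) (J := 𝔪) bot_le
  have h𝔭 : 𝔭.IsPrime := h𝔭min.1.1
  -- nonzero elements of `A` are nonzerodivisors on `T`, hence not in the minimal prime `𝔭`
  have hA𝔭 : ∀ a : A, a ≠ 0 → (a ⊗ₜ[R] (1 : D)) ∉ 𝔭 := by
    intro a ha hmem
    have hreg : (a ⊗ₜ[R] (1 : D)) ∈ nonZeroDivisors T := by
      have hflat : Module.Flat A T := inferInstance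
      have htf : Module.IsTorsionFree A T := inferInstance
      rw [mem_nonZeroDivisors_iff_right]
      intro t ht
      have : a • t = 0 := by
        rw [Algebra.smul_def]
        simpa [mul_comm] using ht
      exact (smul_eq_zero.mp this).resolve_left ha
    exact (Set.disjoint_left.mp
      (Ideal.disjoint_nonZeroDivisors_of_mem_minimalPrimes h𝔭min)) hmem hreg
  -- the domain `Q = T / 𝔭`, its fraction field `F`, and the maps from `A`, `D`, `Ω`
  let Q := T ⧸ 𝔭
  let F := FractionRing Q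
  let mkF : T →+* F := (algebraMap Q F).comp (Ideal.Quotient.mk 𝔭)
  have hmkF : ∀ t : T, mkF t = 0 ↔ t ∈ 𝔭 := by
    intro t
    show algebraMap Q F (Ideal.Quotient.mk 𝔭 t) = 0 ↔ _
    rw [map_eq_zero_iff _ (IsFractionRing.injective Q F), Ideal.Quotient.eq_zero_iff_mem]
  let ιA : A →+* F := mkF.comp (algebraMap A T)
  have hιA : ∀ a : A, ιA a = mkF (a ⊗ₜ 1) := fun a => rfl
  have hιAinj : Function.Injective ιA := by
    rw [injective_iff_map_eq_zero]
    intro a ha
    by_contra ha0
    exact hA𝔭 a ha0 ((hmkF _).mp ha)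
  let ψ : Ω →+* F := IsFractionRing.lift hιAinj
  have hψA : ∀ a : A, ψ (algebraMap A Ω a) = ιA a := fun a => IsFractionRing.lift_algebraMap hιAinj a
  let j : D →+* F := mkF.comp (Algebra.TensorProduct.includeRight : D →ₐ[R] T).toRingHom
  have hj : ∀ d : D, j d = mkF (1 ⊗ₜ d) := fun d => rfl
  have hjR : ∀ r : R, j (algebraMap R D r) = ψ (algebraMap R Ω r) := by
    intro r
    rw [IsScalarTower.algebraMap_apply R A Ω, hψA, hιA, hj]
    congr 1
    rw [Algebra.algebraMap_eq_smul_one, Algebra.algebraMap_eq_smul_one, TensorProduct.smul_tmul]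
  have hmk_tmul : ∀ (a : A) (d : D), mkF (a ⊗ₜ d) = ψ (algebraMap A Ω a) * j d := by
    intro a d
    rw [hψA, hιA, hj, ← map_mul, Algebra.TensorProduct.tmul_mul_tmul, mul_one, one_mul]
  -- `F` is algebraic over `Ω`
  let _ : Algebra Ω F := ψ.toAlgebra
  have hinjΩ : Function.Injective (algebraMap R Ω) := by
    rw [IsScalarTower.algebraMap_eq R A Ω]
    exact (IsFractionRing.injective A Ω).comp hinj
  have hjalg : ∀ d : D, IsAlgebraic Ω (j d) := by
    intro d
    obtain ⟨p, hp0, hp⟩ := halg d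
    refine ⟨p.map (algebraMap R Ω), (Polynomial.map_ne_zero_iff hinjΩ).mpr hp0, ?_⟩
    rw [Polynomial.aeval_def, Polynomial.eval₂_map]
    have h1 : (algebraMap Ω F).comp (algebraMap R Ω) = j.comp (algebraMap R D) :=
      RingHom.ext fun r => (hjR r).symm
    rw [h1, ← Polynomial.hom_eval₂, ← Polynomial.aeval_def, hp, map_zero]
  have hmkalg : ∀ t : T, mkF t ∈ algebraicClosure Ω F := by
    intro t
    induction t using TensorProduct.induction_on with
    | zero => rw [map_zero]; exact zero_mem _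
    | add x y hx hy => rw [map_add]; exact add_mem hx hy
    | tmul a d =>
      rw [hmk_tmul]
      exact mul_mem ((algebraicClosure Ω F).algebraMap_mem _) (mem_algebraicClosure_iff.mpr (hjalg d))
  have halgF : Algebra.IsAlgebraic Ω F := by
    refine ⟨fun f => ?_⟩
    obtain ⟨q₁, q₂, _, rfl⟩ := IsFractionRing.div_surjective (A := Q) f
    obtain ⟨t₁, rfl⟩ := Ideal.Quotient.mk_surjective q₁
    obtain ⟨t₂, rfl⟩ := Ideal.Quotient.mk_surjective q₂
    exact mem_algebraicClosure_iff.mp (div_mem (hmkalg t₁) (hmkalg t₂))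
  have hψbij : Function.Bijective ψ := IsAlgClosed.algebraMap_bijective_of_isIntegral (k := Ω) (K := F)
  -- (★) elements of `Ω` represented by elements of `T` are integral, and nonunits if `t ∈ 𝔪`
  have h1𝔪 : (1 : T) ∉ 𝔪 := fun h => h𝔪.ne_top ((Ideal.eq_top_iff_one _).mpr h)
  have hmem𝔪 : ∀ a : A, ¬ IsUnit a → (a ⊗ₜ[R] (1 : D)) ∈ 𝔪 := by
    intro a ha
    show Φ (a ⊗ₜ 1) = 0
    rw [hΦ, map_one, mul_one]
    exact (IsLocalRing.residue_eq_zero_iff a).mpr ((IsLocalRing.mem_maximalIdeal a).mpr ha)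
  have hcontra : ∀ (t : T) (a : A), a ⊗ₜ[R] (1 : D) ∈ 𝔪 ∨ t ∈ 𝔪 →
      mkF t * ψ (algebraMap A Ω a) = 1 → False := by
    intro t a hor h
    rw [hψA, hιA, ← map_mul, ← sub_eq_zero, ← map_one mkF, ← map_sub, hmkF] at h
    have h2 : t * a ⊗ₜ[R] (1 : D) - 1 ∈ 𝔪 := h𝔭le h
    have h3 : t * a ⊗ₜ[R] (1 : D) ∈ 𝔪 := by
      rcases hor with h | h
      · exact 𝔪.mul_mem_left _ h
      · exact 𝔪.mul_mem_right _ h
    exact h1𝔪 (by simpa using 𝔪.sub_mem h3 h2)
  have hstar : ∀ (ω : Ω) (t : T), ψ ω = mkF t →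
      ∃ a : A, algebraMap A Ω a = ω ∧ (t ∈ 𝔪 → ¬ IsUnit a) := by
    intro ω t hωt
    have hint : ∃ a : A, algebraMap A Ω a = ω := by
      rcases ValuationRing.isInteger_or_isInteger A ω with ⟨a, ha⟩ | ⟨a, ha⟩
      · exact ⟨a, ha⟩
      · by_cases hω0 : ω = 0
        · exact ⟨0, by rw [map_zero, hω0]⟩
        by_cases hau : IsUnit a
        · obtain ⟨u, rfl⟩ := hau
          refine ⟨↑u⁻¹, ?_⟩
          have : algebraMap A Ω ↑u * algebraMap A Ω ↑u⁻¹ = 1 := by
            rw [← map_mul, Units.mul_inv, map_one]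
          have hu : algebraMap A Ω (↑u : A) = ω⁻¹ := ha
          rw [hu] at this
          field_simp at this
          exact this
        · exfalso
          refine hcontra t a (Or.inl (hmem𝔪 a hau)) ?_
          have ha' : algebraMap A Ω a = ω⁻¹ := ha
          rw [← hωt, ha', ← map_mul, mul_inv_cancel₀ hω0, map_one]
    obtain ⟨a, rfl⟩ := hint
    refine ⟨a, rfl, fun ht hau => ?_⟩
    obtain ⟨u, rfl⟩ := hau
    refine hcontra t ↑u⁻¹ (Or.inr ht) ?_
    rw [← hωt, ← map_mul, ← map_mul, Units.mul_inv, map_one, map_one]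
  -- the lift with values in `Ω`
  have hPex : ∀ d : D, ∃ a : A, ψ (algebraMap A Ω a) = j d := by
    intro d
    obtain ⟨ω, hω⟩ := hψbij.surjective (j d)
    obtain ⟨a, ha, _⟩ := hstar ω (1 ⊗ₜ d) (by rw [hω, hj])
    exact ⟨a, by rw [ha, hω]⟩
  choose Pfun hPfun using hPex
  have hinjA : Function.Injective (fun a : A => ψ (algebraMap A Ω a)) :=
    hψbij.injective.comp (IsFractionRing.injective A Ω)
  let P : D →ₐ[R] A :=
    { toFun := Pfun
      map_one' := hinjA (by simp only [hPfun, map_one])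
      map_mul' := fun d e => hinjA (by simp only [hPfun, map_mul])
      map_zero' := hinjA (by simp only [hPfun, map_zero])
      map_add' := fun d e => hinjA (by simp only [hPfun, map_add])
      commutes' := fun r => hinjA (by
        simp only [hPfun, hjR]
        rw [IsScalarTower.algebraMap_apply R A Ω]) }
  refine ⟨P, fun d => ?_⟩
  obtain ⟨a₀, ha₀⟩ := IsLocalRing.residue_surjective (ρ d)
  have ht : (1 ⊗ₜ[R] d - a₀ ⊗ₜ[R] (1 : D) : T) ∈ 𝔪 := by
    show Φ (1 ⊗ₜ d - a₀ ⊗ₜ 1) = 0
    rw [map_sub, hΦ, hΦ, map_one, map_one, one_mul, mul_one, ha₀, sub_self]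
  obtain ⟨a, ha, hnu⟩ := hstar (algebraMap A Ω (P d - a₀)) (1 ⊗ₜ d - a₀ ⊗ₜ 1) (by
    rw [map_sub, map_sub, map_sub]
    show ψ (algebraMap A Ω (Pfun d)) - _ = _
    rw [hPfun, hψA, hιA, hj])
  have haeq : a = P d - a₀ := IsFractionRing.injective A Ω ha
  have hnu' : ¬ IsUnit (P d - a₀) := haeq ▸ hnu ht
  have : residue A (P d - a₀) = 0 :=
    (IsLocalRing.residue_eq_zero_iff _).mpr ((IsLocalRing.mem_maximalIdeal _).mpr hnu')
  rw [map_sub, sub_eq_zero] at this
  rw [this, ha₀]

end Exist

end Fermat.Agent.T1.Centres94
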