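/-
Programme T1a (S19), brick G9-H7 CENTRES-FINAL, field-theoretic leaves (helper94).

`Qbar = AlgebraicClosure ℚ`.

* `exists_normal_field` (F1): a number field `L₁ ⊂ ℚ̄` and a finite set `T ⊂ ℚ̄` are contained in a
  number field `L ⊂ ℚ̄` which is normal over `ℚ`.
* `exists_finset_values` (F2): a ring homomorphism `q : B → ℚ̄` from a `W`-algebra of finite type has all
  its values in every intermediate field `L` that contains the image of `W` and finitely many values
  `q (generators)`.
-/
import Mathlib

set_option autoImplicit false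

namespace Fermat.Agent.T1.Centres94.FieldChoice

/-- **(F1)** a number field and a finite set of algebraic numbers lie in a normal number field. -/
theorem exists_normal_field (L₁ : IntermediateField ℚ (AlgebraicClosure ℚ))
    [FiniteDimensional ℚ L₁] (T : Finset (AlgebraicClosure ℚ)) :
    ∃ L : IntermediateField ℚ (AlgebraicClosure ℚ), FiniteDimensional ℚ L ∧ Normal ℚ L ∧
      L₁ ≤ L ∧ ∀ x ∈ T, x ∈ L := by
  classical
  let L₂ : IntermediateField ℚ (AlgebraicClosure ℚ) :=
    L₁ ⊔ IntermediateField.adjoin ℚ (T : Set (AlgebraicClosure ℚ))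
  have h0 : Algebra.IsAlgebraic ℚ (AlgebraicClosure ℚ) := AlgebraicClosure.isAlgebraic ℚ
  have hcl : IsAlgClosure ℚ (AlgebraicClosure ℚ) := ⟨inferInstance, h0⟩
  have hnorm : Normal ℚ (AlgebraicClosure ℚ) := IsAlgClosure.normal ℚ _
  have hfin2 : FiniteDimensional ℚ (IntermediateField.adjoin ℚ (T : Set (AlgebraicClosure ℚ))) :=
    IntermediateField.finiteDimensional_adjoin
      (fun x _ => (Algebra.IsAlgebraic.isAlgebraic x).isIntegral)
  have hfin : FiniteDimensional ℚ L₂ := IntermediateField.finiteDimensional_sup L₁ _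
  have hne : Nonempty (L₂ →ₐ[ℚ] AlgebraicClosure ℚ) := ⟨L₂.val⟩
  refine ⟨IntermediateField.normalClosure ℚ L₂ (AlgebraicClosure ℚ),
    normalClosure.is_finiteDimensional ℚ L₂ (AlgebraicClosure ℚ),
    normalClosure.normal ℚ L₂ (AlgebraicClosure ℚ), ?_, ?_⟩
  · exact (le_sup_left : L₁ ≤ L₂).trans (IntermediateField.le_normalClosure L₂)
  · intro x hx
    have h1 : x ∈ IntermediateField.adjoin ℚ (T : Set (AlgebraicClosure ℚ)) :=
      IntermediateField.subset_adjoin ℚ _ hx
    exact IntermediateField.le_normalClosure L₂ ((le_sup_right : _ ≤ L₂) h1)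

/-- **(F2)** a point `q : B → Ω` of a `W`-algebra of finite type has its values in every subfield
containing the constants and finitely many values. -/
theorem exists_finset_values {W B Ω : Type*} [CommRing W] [CommRing B] [Field Ω] [Algebra W B]
    [Algebra W Ω] [Algebra.FiniteType W B] (q : B →ₐ[W] Ω) :
    ∃ T : Finset Ω, ∀ L : Subfield Ω, (∀ w : W, algebraMap W Ω w ∈ L) → (∀ x ∈ T, x ∈ L) →
      ∀ b, q b ∈ L := by
  classical
  obtain ⟨S, hS⟩ := (Algebra.FiniteType.out : (⊤ : Subalgebra W B).FG)
  refine ⟨S.image q, fun L hW hT b => ?_⟩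
  have hb : b ∈ Algebra.adjoin W (S : Set B) := by rw [hS]; exact Algebra.mem_top
  induction hb using Algebra.adjoin_induction with
  | mem x hx => exact hT _ (Finset.mem_image_of_mem _ hx)
  | algebraMap w =>
    rw [AlgHom.commutes]
    exact hW w
  | add x y _ _ hx hy =>
    rw [map_add]
    exact L.add_mem hx hy
  | mul x y _ _ hx hy =>
    rw [map_mul]
    exact L.mul_mem hx hy

end Fermat.Agent.T1.Centres94.FieldChoice
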