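/-
Programme T1a (S19), brick R-g CENTRES: the centres theorem `Centres92.Main.exists_centre_valuationSubring`
(helper92) instantiated on a chart of a `TwoChartModel` through the package `Centres94.OfModel.Chart`
(helper94).

`Chart.exists_centre` : for a chart `B ∋ τ` (`τ` transcendental over `R`, finite residue field), every
integral point `q : B →ₐ[R] Ω` (values in the valuation ring `A` of the algebraically closed field `Ω`)
has a centre `q'`: integral, congruent to `q` modulo `𝔪_A`, and fixed by the inertia group of `A`.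
`exists_centre0`, `exists_centre1` : the two charts of a `TwoChartModel`.
-/
import Mathlib
import Fermat.Agent.T1.Centres92.Main
import Fermat.Agent.T1.Centres94.OfModel

set_option autoImplicit false

namespace Fermat.Agent.T1.Centres94.ModelCentres

open Polynomial Fermat.Agent.T1.Centres94.OfModel

section Chart

variable {R F : Type*} [CommRing R] [IsDomain R] [IsDiscreteValuationRing R] [Field F]
  [Algebra R F]
variable {π : R} {τ : F} {B : Subalgebra R F} {Ov : ValuationSubring F}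
variable {Ω : Type*} [Field Ω] [Algebra R Ω]

/-- **Centres on a chart of the smooth model.** -/
theorem _root_.Fermat.Agent.T1.Centres94.OfModel.Chart.exists_centre (h : Chart π τ B Ov)
    [Finite (R ⧸ Ideal.span {π})] (htr : Transcendental R τ)
    [IsAlgClosed Ω] [Algebra.IsAlgebraic R Ω] (hπ : Irreducible π)
    (hinj : Function.Injective (algebraMap R Ω))
    (A : ValuationSubring Ω) (hWA : ∀ w : R, algebraMap R Ω w ∈ A)
    (hdom : ∀ w : R, A.valuation (algebraMap R Ω w) < 1 ↔ w ∈ IsLocalRing.maximalIdeal R)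
    (q : B →ₐ[R] Ω) (hq : ∀ b, q b ∈ A) :
    ∃ q' : B →ₐ[R] Ω, (∀ b, q' b ∈ A) ∧ (∀ b, A.valuation (q' b - q b) < 1) ∧
      ∀ σ : Ω ≃+* Ω, (∀ w : R, σ (algebraMap R Ω w) = algebraMap R Ω w) →
        (∀ a ∈ A, σ a ∈ A ∧ A.valuation (σ a - a) < 1) → ∀ b, σ (q' b) = q' b :=
  Fermat.Agent.T1.Centres92.Main.exists_centre_valuationSubring hπ hinj A hWA hdom
    h.piB_ne_zero h.isPrime_span_pi (h.ne_span_pi htr) h.smooth h.halg h.hsep q hq

end Chart

section Model

open Fermat.Agent.RED.CORE.CoreIface24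

variable {R K F : Type*} [CommRing R] [IsDomain R] [IsDiscreteValuationRing R] [Field K]
  [Field F] [Algebra R K] [Algebra K F] [Algebra R F] [IsScalarTower R K F]
variable {π : R} {t : F} {B0 B1 : Subalgebra R F} {Ov : ValuationSubring F}
variable {Ω : Type*} [Field Ω] [Algebra R Ω]

/-- Centres on the chart `B0 ∋ t`. -/
theorem exists_centre0 (M : TwoChartModel R K F π t B0 B1 Ov) [Finite (R ⧸ Ideal.span {π})]
    (htr : Transcendental K t) [IsAlgClosed Ω] [Algebra.IsAlgebraic R Ω] (hπ : Irreducible π)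
    (hinj : Function.Injective (algebraMap R Ω))
    (A : ValuationSubring Ω) (hWA : ∀ w : R, algebraMap R Ω w ∈ A)
    (hdom : ∀ w : R, A.valuation (algebraMap R Ω w) < 1 ↔ w ∈ IsLocalRing.maximalIdeal R)
    (q : B0 →ₐ[R] Ω) (hq : ∀ b, q b ∈ A) :
    ∃ q' : B0 →ₐ[R] Ω, (∀ b, q' b ∈ A) ∧ (∀ b, A.valuation (q' b - q b) < 1) ∧
      ∀ σ : Ω ≃+* Ω, (∀ w : R, σ (algebraMap R Ω w) = algebraMap R Ω w) →
        (∀ a ∈ A, σ a ∈ A ∧ A.valuation (σ a - a) < 1) → ∀ b, σ (q' b) = q' b :=
  (chart0 M).exists_centre (transcendental0 M htr) hπ hinj A hWA hdom q hq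

/-- Centres on the chart `B1 ∋ t⁻¹`. -/
theorem exists_centre1 (M : TwoChartModel R K F π t B0 B1 Ov) [Finite (R ⧸ Ideal.span {π})]
    (htr : Transcendental K t) [IsAlgClosed Ω] [Algebra.IsAlgebraic R Ω] (hπ : Irreducible π)
    (hinj : Function.Injective (algebraMap R Ω))
    (A : ValuationSubring Ω) (hWA : ∀ w : R, algebraMap R Ω w ∈ A)
    (hdom : ∀ w : R, A.valuation (algebraMap R Ω w) < 1 ↔ w ∈ IsLocalRing.maximalIdeal R)
    (q : B1 →ₐ[R] Ω) (hq : ∀ b, q b ∈ A) :
    ∃ q' : B1 →ₐ[R] Ω, (∀ b, q' b ∈ A) ∧ (∀ b, A.valuation (q' b - q b) < 1) ∧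
      ∀ σ : Ω ≃+* Ω, (∀ w : R, σ (algebraMap R Ω w) = algebraMap R Ω w) →
        (∀ a ∈ A, σ a ∈ A ∧ A.valuation (σ a - a) < 1) → ∀ b, σ (q' b) = q' b :=
  (chart1 M).exists_centre (transcendental1 M htr) hπ hinj A hWA hdom q hq

end Model

end Fermat.Agent.T1.Centres94.ModelCentres
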