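/-
Programme T1a (S19), brick R-g CENTRES: the `ℓ`-adic centres theorem
`Centres92.ToLocal.exists_centre_local` (helper92) instantiated on a chart of a `TwoChartModel`
through the package `Centres94.OfModel.Chart` (helper94).

`Chart.exists_centre_local` : a chart `B ∋ τ` of finite type (`τ` transcendental over `R`, finite
residue field): every integral point `q` of `B` has a centre `q'`: integral, congruent to `q`, with
all values in ONE unramified field `ℚ_ℓ(μ_m)`, `ℓ ∤ m`, `m₀ ∣ m`, fixed by `res σ` for `σ` fixing that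
field.  `exists_centre_local0` (chart `B0`, finite type from `fin0`) and `exists_centre_local1`
(chart `B1`, finite type from a `fin1`-shaped hypothesis, exported by G0).
-/
import Mathlib
import Fermat.Agent.T1.Centres92.ToLocal
import Fermat.Agent.T1.Centres94.OfModel

set_option autoImplicit false

namespace Fermat.Agent.T1.Centres94.ModelLocal

open Polynomial Fermat.Agent.T1.Centres94.OfModel
open Fermat.Agent.TW.B5.Iface Fermat.Agent.TW.B5.LG83W Fermat.Agent.TW.B5.LG83X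
  Fermat.Agent.T1.Unram47

variable (ℓ : ℕ) [Fact ℓ.Prime]

section Chart

variable {R F : Type*} [CommRing R] [IsDomain R] [IsDiscreteValuationRing R] [Field F]
  [Algebra R F]
variable {π : R} {τ : F} {B : Subalgebra R F} {Ov : ValuationSubring F}
variable {Ω : Type*} [Field Ω] [Algebra R Ω]

/-- **Centres on a chart of the smooth model, `ℓ`-adic form.** -/
theorem _root_.Fermat.Agent.T1.Centres94.OfModel.Chart.exists_centre_local (h : Chart π τ B Ov)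
    [Finite (R ⧸ Ideal.span {π})] (htr : Transcendental R τ) [Algebra.FiniteType R B]
    [IsAlgClosed Ω] [Algebra.IsAlgebraic R Ω] (hπ : Irreducible π)
    (hinj : Function.Injective (algebraMap R Ω))
    (ι : Ω →+* Kbar ℓ) (res : Gp ℓ → Ω ≃+* Ω) (hres : ∀ σ x, ι (res σ x) = σ (ι x))
    (A : ValuationSubring Ω) (hA : ∀ x, x ∈ A ↔ ‖ι x‖ ≤ 1)
    (hWA : ∀ w : R, ‖ι (algebraMap R Ω w)‖ ≤ 1)
    (hdom : ∀ w : R, ‖ι (algebraMap R Ω w)‖ < 1 ↔ w ∈ IsLocalRing.maximalIdeal R)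
    (m₀ : ℕ) (hm₀ : ¬ ℓ ∣ m₀) (hWmu : ∀ w : R, ι (algebraMap R Ω w) ∈ muField ℓ m₀)
    (q : B →ₐ[R] Ω) (hq : ∀ b, ‖ι (q b)‖ ≤ 1) :
    ∃ q' : B →ₐ[R] Ω, (∀ b, ‖ι (q' b)‖ ≤ 1) ∧ (∀ b, ‖ι (q' b) - ι (q b)‖ < 1) ∧
      ∃ m : ℕ, ¬ ℓ ∣ m ∧ m₀ ∣ m ∧ (∀ b, ι (q' b) ∈ muField ℓ m) ∧
        ∀ σ : Gp ℓ, (∀ e ∈ muField ℓ m, σ e = e) → ∀ b, res σ (q' b) = q' b :=
  Fermat.Agent.T1.Centres92.ToLocal.exists_centre_local ℓ hπ hinj ι res hres A hA hWA hdom m₀ hm₀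
    hWmu h.piB_ne_zero h.isPrime_span_pi (h.ne_span_pi htr) h.smooth h.halg h.hsep q hq

end Chart

section Model

open Fermat.Agent.RED.CORE.CoreIface24

variable {R K F : Type*} [CommRing R] [IsDomain R] [IsDiscreteValuationRing R] [Field K]
  [Field F] [Algebra R K] [Algebra K F] [Algebra R F] [IsScalarTower R K F]
variable {π : R} {t : F} {B0 B1 : Subalgebra R F} {Ov : ValuationSubring F}
variable {Ω : Type*} [Field Ω] [Algebra R Ω]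

/-- `ℓ`-adic centres on the chart `B0 ∋ t`. -/
theorem exists_centre_local0 (M : TwoChartModel R K F π t B0 B1 Ov)
    [Finite (R ⧸ Ideal.span {π})] (htr : Transcendental K t)
    [IsAlgClosed Ω] [Algebra.IsAlgebraic R Ω] (hπ : Irreducible π)
    (hinj : Function.Injective (algebraMap R Ω))
    (ι : Ω →+* Kbar ℓ) (res : Gp ℓ → Ω ≃+* Ω) (hres : ∀ σ x, ι (res σ x) = σ (ι x))
    (A : ValuationSubring Ω) (hA : ∀ x, x ∈ A ↔ ‖ι x‖ ≤ 1)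
    (hWA : ∀ w : R, ‖ι (algebraMap R Ω w)‖ ≤ 1)
    (hdom : ∀ w : R, ‖ι (algebraMap R Ω w)‖ < 1 ↔ w ∈ IsLocalRing.maximalIdeal R)
    (m₀ : ℕ) (hm₀ : ¬ ℓ ∣ m₀) (hWmu : ∀ w : R, ι (algebraMap R Ω w) ∈ muField ℓ m₀)
    (q : B0 →ₐ[R] Ω) (hq : ∀ b, ‖ι (q b)‖ ≤ 1) :
    ∃ q' : B0 →ₐ[R] Ω, (∀ b, ‖ι (q' b)‖ ≤ 1) ∧ (∀ b, ‖ι (q' b) - ι (q b)‖ < 1) ∧
      ∃ m : ℕ, ¬ ℓ ∣ m ∧ m₀ ∣ m ∧ (∀ b, ι (q' b) ∈ muField ℓ m) ∧
        ∀ σ : Gp ℓ, (∀ e ∈ muField ℓ m, σ e = e) → ∀ b, res σ (q' b) = q' b := by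
  have := finiteType0 M
  exact (chart0 M).exists_centre_local ℓ (transcendental0 M htr) hπ hinj ι res hres A hA hWA hdom
    m₀ hm₀ hWmu q hq

/-- `ℓ`-adic centres on the chart `B1 ∋ t⁻¹`; `fin1` is the analogue of `TwoChartModel.fin0` for
`B1` (exported by G0). -/
theorem exists_centre_local1 (M : TwoChartModel R K F π t B0 B1 Ov)
    (fin1 : ∃ (r : ℕ) (e : Fin r → F), (∀ i, e i ∈ B1) ∧
      ∀ x ∈ B1, ∃ P : Fin r → R[X], x = ∑ i, aeval t⁻¹ (P i) * e i)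
    [Finite (R ⧸ Ideal.span {π})] (htr : Transcendental K t)
    [IsAlgClosed Ω] [Algebra.IsAlgebraic R Ω] (hπ : Irreducible π)
    (hinj : Function.Injective (algebraMap R Ω))
    (ι : Ω →+* Kbar ℓ) (res : Gp ℓ → Ω ≃+* Ω) (hres : ∀ σ x, ι (res σ x) = σ (ι x))
    (A : ValuationSubring Ω) (hA : ∀ x, x ∈ A ↔ ‖ι x‖ ≤ 1)
    (hWA : ∀ w : R, ‖ι (algebraMap R Ω w)‖ ≤ 1)
    (hdom : ∀ w : R, ‖ι (algebraMap R Ω w)‖ < 1 ↔ w ∈ IsLocalRing.maximalIdeal R)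
    (m₀ : ℕ) (hm₀ : ¬ ℓ ∣ m₀) (hWmu : ∀ w : R, ι (algebraMap R Ω w) ∈ muField ℓ m₀)
    (q : B1 →ₐ[R] Ω) (hq : ∀ b, ‖ι (q b)‖ ≤ 1) :
    ∃ q' : B1 →ₐ[R] Ω, (∀ b, ‖ι (q' b)‖ ≤ 1) ∧ (∀ b, ‖ι (q' b) - ι (q b)‖ < 1) ∧
      ∃ m : ℕ, ¬ ℓ ∣ m ∧ m₀ ∣ m ∧ (∀ b, ι (q' b) ∈ muField ℓ m) ∧
        ∀ σ : Gp ℓ, (∀ e ∈ muField ℓ m, σ e = e) → ∀ b, res σ (q' b) = q' b := by
  have := finiteType_of_fin M.tinv_mem fin1
  exact (chart1 M).exists_centre_local ℓ (transcendental1 M htr) hπ hinj ι res hres A hA hWA hdom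
    m₀ hm₀ hWmu q hq

end Model

end Fermat.Agent.T1.Centres94.ModelLocal
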