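/-
T1A / R-g CENTRES, abstract core (helper94), part (U): RIGIDITY.  Mathlib only.

`R` base ring (application: the DVR `𝒪_{K'}(v)` of a number field `K'` unramified at `v`,
uniformiser `π`), `C` an `R`-algebra (a chart of the smooth model over `R`), `x` an ideal of `C`
(a maximal ideal containing `π`), `s ∈ C`.  `IsLocalParam π x s` says that `x` is an `R`-rational
point and that `(π, s)` generates `x` locally at `x`.

Main results:
* `eq_of_centred` : two `R`-algebra homomorphisms `P₁ P₂ : C → O` into a `π`-adically separated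
  `R`-algebra `O`, both killing `s` and both sending the complement of `x` to units, are equal;
* `fixed_of_centred` : such a point is fixed by every `R`-algebra automorphism of `O`;
* `separated_of_algebraic` : a valuation subring `A` of an algebraic extension `Ω` of `Frac R`
  with `A ∩ R = R`-adic data as below is `π`-adically separated.
-/
import Mathlib

set_option autoImplicit false

namespace Fermat.Agent.T1.Centres94

section Rigid

variable {R C O : Type*} [CommRing R] [CommRing C] [CommRing O] [Algebra R C] [Algebra R O]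

/-- `s` is a local parameter at the `R`-rational point `x` of `C` (relative to `π`): every element
of `C` is congruent to a constant modulo `x`, and `x` is generated by `π` and `s` locally at `x`. -/
structure IsLocalParam (π : R) (x : Ideal C) (s : C) : Prop where
  rational : ∀ c : C, ∃ w : R, c - algebraMap R C w ∈ x
  gen : ∀ y ∈ x, ∃ d : C, d ∉ x ∧ ∃ a b : C, d * y = a * algebraMap R C π + b * s

/-- `P` is centred at `x`: elements outside `x` become units. -/
def IsCentredAt (x : Ideal C) (P : C →ₐ[R] O) : Prop := ∀ u : C, u ∉ x → IsUnit (P u)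

variable {π : R} {x : Ideal C} {s : C}

theorem sub_mem_span_pow (h : IsLocalParam π x s) (P₁ P₂ : C →ₐ[R] O) (h₁ : P₁ s = 0)
    (h₂ : P₂ s = 0) (u₁ : IsCentredAt x P₁) (u₂ : IsCentredAt x P₂) (n : ℕ) :
    ∀ c : C, P₁ c - P₂ c ∈ Ideal.span {algebraMap R O π ^ n} := by
  induction n with
  | zero =>
    intro c
    rw [pow_zero, Ideal.span_singleton_one]
    exact Submodule.mem_top
  | succ n ih =>
    intro c
    obtain ⟨w, hw⟩ := h.rational c
    obtain ⟨d, hd, a, b, hdab⟩ := h.gen _ hw
    set c₁ := c - algebraMap R C w with hc₁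
    have hδ : P₁ c - P₂ c = P₁ c₁ - P₂ c₁ := by
      simp only [hc₁, map_sub, AlgHom.commutes]
      ring
    rw [hδ]
    have e₁ : P₁ d * P₁ c₁ = P₁ a * algebraMap R O π := by
      rw [← map_mul, hdab, map_add, map_mul, map_mul, h₁, mul_zero, add_zero, AlgHom.commutes]
    have e₂ : P₂ d * P₂ c₁ = P₂ a * algebraMap R O π := by
      rw [← map_mul, hdab, map_add, map_mul, map_mul, h₂, mul_zero, add_zero, AlgHom.commutes]
    obtain ⟨v₁, hv₁⟩ := u₁ d hd
    obtain ⟨v₂, hv₂⟩ := u₂ d hd
    have e₂' : P₂ c₁ = (↑v₂⁻¹ : O) * P₂ a * algebraMap R O π := by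
      have : (↑v₂⁻¹ : O) * (P₂ d * P₂ c₁) = (↑v₂⁻¹ : O) * (P₂ a * algebraMap R O π) := by rw [e₂]
      rw [← hv₂, ← mul_assoc, Units.inv_mul, one_mul] at this
      rw [this, mul_assoc]
    obtain ⟨α, hα⟩ := Ideal.mem_span_singleton'.mp (ih a)
    obtain ⟨β, hβ⟩ := Ideal.mem_span_singleton'.mp (ih d)
    -- `P₁ d * δ c₁ = π * (δ a - δ d * v)`
    have key : P₁ d * (P₁ c₁ - P₂ c₁) =
        algebraMap R O π ^ (n + 1) * (α - β * ((↑v₂⁻¹ : O) * P₂ a)) := by
      have hd' : P₁ d = P₂ d + β * algebraMap R O π ^ n := by rw [hβ]; ring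
      calc P₁ d * (P₁ c₁ - P₂ c₁) = P₁ d * P₁ c₁ - P₁ d * P₂ c₁ := by ring
        _ = P₁ a * algebraMap R O π - (P₂ d + β * algebraMap R O π ^ n) * P₂ c₁ := by
            rw [e₁, ← hd']
        _ = P₁ a * algebraMap R O π - P₂ d * P₂ c₁ - β * algebraMap R O π ^ n * P₂ c₁ := by ring
        _ = (P₁ a - P₂ a) * algebraMap R O π - β * algebraMap R O π ^ n * P₂ c₁ := by
            rw [e₂]; ring
        _ = (α * algebraMap R O π ^ n) * algebraMap R O π -
              β * algebraMap R O π ^ n * ((↑v₂⁻¹ : O) * P₂ a * algebraMap R O π) := by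
            rw [hα, ← e₂']
        _ = algebraMap R O π ^ (n + 1) * (α - β * ((↑v₂⁻¹ : O) * P₂ a)) := by ring
    rw [Ideal.mem_span_singleton']
    refine ⟨(↑v₁⁻¹ : O) * (α - β * ((↑v₂⁻¹ : O) * P₂ a)), ?_⟩
    have : (↑v₁⁻¹ : O) * (P₁ d * (P₁ c₁ - P₂ c₁)) = P₁ c₁ - P₂ c₁ := by
      rw [← hv₁, ← mul_assoc, Units.inv_mul, one_mul]
    rw [← this, key]
    ring

/-- **Rigidity.**  Two points of `C` with values in a `π`-adically separated `R`-algebra which are
centred at the rational point `x` and kill the local parameter `s` coincide. -/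
theorem eq_of_centred (h : IsLocalParam π x s)
    (hO : ∀ z : O, (∀ n : ℕ, z ∈ Ideal.span {algebraMap R O π ^ n}) → z = 0)
    (P₁ P₂ : C →ₐ[R] O) (h₁ : P₁ s = 0) (h₂ : P₂ s = 0)
    (u₁ : IsCentredAt x P₁) (u₂ : IsCentredAt x P₂) : P₁ = P₂ := by
  refine AlgHom.ext fun c => ?_
  rw [← sub_eq_zero]
  exact hO _ fun n => sub_mem_span_pow h P₁ P₂ h₁ h₂ u₁ u₂ n c

/-- **Fixedness.**  A centred zero of the local parameter is fixed by every `R`-algebra
automorphism of the target. -/
theorem fixed_of_centred (h : IsLocalParam π x s)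
    (hO : ∀ z : O, (∀ n : ℕ, z ∈ Ideal.span {algebraMap R O π ^ n}) → z = 0)
    (P : C →ₐ[R] O) (h₀ : P s = 0) (u : IsCentredAt x P) (σ : O ≃ₐ[R] O) (c : C) :
    σ (P c) = P c := by
  have hσ : (σ : O →ₐ[R] O).comp P = P := by
    refine eq_of_centred h hO _ _ ?_ h₀ ?_ u
    · simp [h₀]
    · intro v hv
      exact (u v hv).map σ
  exact congrArg (fun f : C →ₐ[R] O => f c) hσ

end Rigid

section Separated

variable {R Ω : Type*} [CommRing R] [Field Ω] [Algebra R Ω]

/-- A valuation subring `A` of a field `Ω` algebraic over `R`, with `A ∩ Frac R = R` in the weak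
form `hdiv`, is `π`-adically separated as soon as `R` is. -/
theorem separated_of_algebraic (A : ValuationSubring Ω) (π : R)
    (hRA : ∀ r : R, algebraMap R Ω r ∈ A)
    (hdiv : ∀ (r : R) (n : ℕ), (∃ a ∈ A, algebraMap R Ω r = algebraMap R Ω π ^ n * a) → π ^ n ∣ r)
    (hsep : ∀ r : R, (∀ n : ℕ, π ^ n ∣ r) → r = 0)
    (halg : Algebra.IsAlgebraic R Ω)
    (z : Ω) (hz : ∀ n : ℕ, ∃ a ∈ A, z = algebraMap R Ω π ^ n * a) : z = 0 := by
  by_contra hz0
  have hzA : z ∈ A := by
    obtain ⟨a, ha, h⟩ := hz 0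
    rw [h, pow_zero, one_mul]; exact ha
  -- evaluation of polynomials over `R` at `z` stays in `A`
  have hev : ∀ q : Polynomial R, Polynomial.aeval z q ∈ A := by
    intro q
    induction q using Polynomial.induction_on' with
    | add p q hp hq => rw [map_add]; exact A.add_mem _ _ hp hq
    | monomial n r =>
      rw [Polynomial.aeval_monomial]
      exact A.mul_mem _ _ (hRA r) (pow_mem hzA n)
  obtain ⟨p, hp0, hpz⟩ := halg.isAlgebraic z
  obtain ⟨q, hpq, hq⟩ := Polynomial.exists_eq_pow_rootMultiplicity_mul_and_not_dvd p hp0 0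
  rw [Polynomial.C_0, sub_zero] at hpq hq
  have hq0 : q.coeff 0 ≠ 0 := fun h0 => hq (Polynomial.X_dvd_iff.mpr h0)
  have hqz : Polynomial.aeval z q = 0 := by
    rw [hpq, map_mul, map_pow, Polynomial.aeval_X] at hpz
    exact (mul_eq_zero.mp hpz).resolve_left (pow_ne_zero _ hz0)
  have hsplit : Polynomial.aeval z q.divX * z + algebraMap R Ω (q.coeff 0) = 0 := by
    have := congrArg (Polynomial.aeval z) (Polynomial.divX_mul_X_add q)
    rw [map_add, map_mul, Polynomial.aeval_X, Polynomial.aeval_C, hqz] at this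
    exact this
  apply hq0
  apply hsep
  intro n
  apply hdiv
  obtain ⟨a, ha, hza⟩ := hz n
  refine ⟨-(Polynomial.aeval z q.divX * a), A.neg_mem _ (A.mul_mem _ _ (hev _) ha), ?_⟩
  have : algebraMap R Ω (q.coeff 0) = -(Polynomial.aeval z q.divX * z) := by
    rw [eq_neg_iff_add_eq_zero, add_comm]; exact hsplit
  rw [this, hza]; ring

end Separated

end Fermat.Agent.T1.Centres94
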